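import Mathlib
import Fermat.Prelude.Def_FLTPrelim_GaloisRep

set_option autoImplicit false

open WeierstrassCurve WeierstrassCurve.Affine WeierstrassCurve.Affine.Point

noncomputable section

namespace Fermat.Agent.S51_helper12

/-- The algebraic closure of `ℚ` used throughout the prelude. -/
abbrev Qbar : Type := AlgebraicClosure ℚ

/-- The absolute Galois group of `ℚ`. -/
abbrev GalQ : Type := Qbar ≃ₐ[ℚ] Qbar

theorem ratAlgebra_eq_instAlgebra :
    (DivisionRing.toRatAlgebra : Algebra ℚ Qbar) = AlgebraicClosure.instAlgebra ℚ :=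
  Subsingleton.elim _ _

instance isGalois_rat_Qbar : IsGalois ℚ Qbar := by
  rw [ratAlgebra_eq_instAlgebra]
  infer_instance

/-- An element of `Qbar` fixed by the whole Galois group is rational. -/
theorem mem_range_of_fixed (z : Qbar) (hz : ∀ σ : GalQ, σ z = z) :
    ∃ q : ℚ, algebraMap ℚ Qbar q = z :=
  (InfiniteGalois.mem_range_algebraMap_iff_fixed (k := ℚ) (K := Qbar) z).mpr hz

variable (E : WeierstrassCurve ℚ)

/-- The `x`-coordinate of a point (with junk value `0` at the origin). -/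
def xOf : (E⁄Qbar).Point → Qbar
  | .zero => 0
  | .some x _ _ => x

@[simp] theorem xOf_zero : xOf E (0 : (E⁄Qbar).Point) = 0 := rfl

@[simp] theorem xOf_some {x y : Qbar} (h : (E⁄Qbar).Nonsingular x y) :
    xOf E (Point.some x y h) = x := rfl

theorem xOf_neg (P : (E⁄Qbar).Point) : xOf E (-P) = xOf E P := by
  cases P with
  | zero => rfl
  | some x y h => rfl

theorem smul_some (σ : GalQ) {x y : Qbar} (h : (E⁄Qbar).Nonsingular x y) :
    ∃ h' : (E⁄Qbar).Nonsingular (σ x) (σ y), σ • Point.some x y h = Point.some (σ x) (σ y) h' := by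
  exact ⟨_, Point.map_some (W' := E) σ.toAlgHom h⟩

theorem xOf_smul (σ : GalQ) (P : (E⁄Qbar).Point) : xOf E (σ • P) = σ (xOf E P) := by
  cases P with
  | zero =>
    change xOf E (Point.map (W' := E) σ.toAlgHom (0 : (E⁄Qbar).Point)) = σ 0
    rw [_root_.map_zero, _root_.map_zero]; rfl
  | some x y h =>
    obtain ⟨h', e⟩ := smul_some E σ h
    rw [e]; rfl

/-- The `p`-torsion of `E(Qbar)` in exactly the shape used by the prelude. -/
abbrev Tors (p : ℕ) : Type := Submodule.torsionBy ℤ (E⁄Qbar).Point p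

variable {E}

theorem coe_smul_tors {p : ℕ} (σ : GalQ) (P : Tors E p) :
    ((σ • P : Tors E p) : (E⁄Qbar).Point) = σ • (P : (E⁄Qbar).Point) := rfl

theorem xOf_smul_tors {p : ℕ} (σ : GalQ) (P : Tors E p) :
    xOf E ((σ • P : Tors E p) : (E⁄Qbar).Point) = σ (xOf E (P : (E⁄Qbar).Point)) := by
  rw [coe_smul_tors, xOf_smul]

theorem xOf_neg_tors {p : ℕ} (P : Tors E p) :
    xOf E ((-P : Tors E p) : (E⁄Qbar).Point) = xOf E (P : (E⁄Qbar).Point) := by
  rw [Submodule.coe_neg, xOf_neg]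

section Line

variable {p : ℕ} [hp : Fact p.Prime]

theorem finrank_le_two_of_card_lt [Finite (Tors E p)] (hcard : Nat.card (Tors E p) < p ^ 3) :
    Module.finrank (ZMod p) (Tors E p) ≤ 2 := by
  have h1 : Nat.card (Tors E p) = p ^ Module.finrank (ZMod p) (Tors E p) := by
    rw [Module.natCard_eq_pow_finrank (K := ZMod p) (V := Tors E p), Nat.card_zmod]
  rw [h1] at hcard
  exact Nat.lt_succ_iff.mp ((Nat.pow_lt_pow_iff_right hp.out.one_lt).mp hcard)

/-- A proper nonzero submodule of a space of dimension at most two is a line. -/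
theorem exists_generator [Module.Finite (ZMod p) (Tors E p)]
    (hfr : Module.finrank (ZMod p) (Tors E p) ≤ 2)
    (N : Submodule (ZMod p) (Tors E p)) (hbot : N ≠ ⊥) (htop : N ≠ ⊤) :
    ∃ P : Tors E p, P ∈ N ∧ P ≠ 0 ∧ ∀ Q ∈ N, ∃ c : ZMod p, Q = c • P := by
  have h1 : 1 ≤ Module.finrank (ZMod p) N := by
    rw [Nat.succ_le_iff, Module.finrank_pos_iff]
    exact (Submodule.nontrivial_iff_ne_bot).mpr hbot
  have h2 : Module.finrank (ZMod p) N < Module.finrank (ZMod p) (Tors E p) :=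
    Submodule.finrank_lt htop
  have h3 : Module.finrank (ZMod p) N = 1 := by omega
  obtain ⟨v, hv0, hv⟩ := finrank_eq_one_iff'.mp h3
  refine ⟨v.1, v.2, fun h => hv0 (Subtype.ext h), fun Q hQ => ?_⟩
  obtain ⟨c, hc⟩ := hv ⟨Q, hQ⟩
  exact ⟨c, by simpa using (congrArg Subtype.val hc).symm⟩

omit hp in
theorem smul_ne_zero_tors (σ : GalQ) {P : Tors E p} (hP : P ≠ 0) : σ • P ≠ 0 := by
  intro h
  apply hP
  have : σ⁻¹ • (σ • P) = σ⁻¹ • (0 : Tors E p) := by rw [h]
  rwa [inv_smul_smul, smul_zero] at this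

end Line

theorem eq_or_eq_neg_of_xOf_eq {P Q : (E⁄Qbar).Point} (hP : P ≠ 0) (hQ : Q ≠ 0)
    (h : xOf E P = xOf E Q) : P = Q ∨ P = -Q := by
  cases P with
  | zero => exact absurd rfl hP
  | some x₁ y₁ h₁ =>
    cases Q with
    | zero => exact absurd rfl hQ
    | some x₂ y₂ h₂ =>
      have hx : x₁ = x₂ := h
      exact (Point.X_eq_iff (h₁ := h₁) (h₂ := h₂)).mp hx

section Three

theorem zmod_three_cases : ∀ c : ZMod 3, c ≠ 0 → c = 1 ∨ c = -1 := by decide

/-- A Galois-stable line in `E[3]` contains a nonzero point with rational `x`-coordinate. -/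
theorem exists_rational_x_three [Finite (Tors E 3)] (hcard : Nat.card (Tors E 3) < 3 ^ 3)
    (N : Submodule (ZMod 3) (Tors E 3)) (hstab : IsGaloisStable ℚ N) (hbot : N ≠ ⊥)
    (htop : N ≠ ⊤) :
    ∃ P : Tors E 3, P ∈ N ∧ P ≠ 0 ∧
      ∃ q : ℚ, algebraMap ℚ Qbar q = xOf E (P : (E⁄Qbar).Point) := by
  have : Fact (Nat.Prime 3) := ⟨Nat.prime_three⟩
  have : Module.Finite (ZMod 3) (Tors E 3) := Module.Finite.of_finite
  obtain ⟨P, hPN, hP0, hgen⟩ := exists_generator (finrank_le_two_of_card_lt hcard) N hbot htop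
  refine ⟨P, hPN, hP0, mem_range_of_fixed _ fun σ => ?_⟩
  obtain ⟨c, hc⟩ := hgen (σ • P) (hstab σ P hPN)
  have hc0 : c ≠ 0 := by
    rintro rfl
    rw [zero_smul] at hc
    exact smul_ne_zero_tors σ hP0 hc
  rw [← xOf_smul_tors, hc]
  rcases zmod_three_cases c hc0 with rfl | rfl
  · rw [one_smul]
  · rw [neg_one_smul, xOf_neg_tors]

end Three

section Five

theorem zmod_five_cases : ∀ c : ZMod 5, c ≠ 0 → c = 1 ∨ c = -1 ∨ c = 2 ∨ c = -2 := by decide

theorem five_nsmul_tors (P : Tors E 5) : (5 : ℕ) • P = 0 := by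
  rw [← Nat.cast_smul_eq_nsmul (ZMod 5)]
  have : ((5 : ℕ) : ZMod 5) = 0 := by decide
  rw [this, zero_smul]

theorem double_double_tors (P : Tors E 5) : (P + P) + (P + P) = -P := by
  have h := five_nsmul_tors P
  apply eq_neg_of_add_eq_zero_left
  rw [← h]
  abel

theorem double_ne_zero_tors {P : Tors E 5} (hP : P ≠ 0) : P + P ≠ 0 := by
  intro h
  apply hP
  have h4 := double_double_tors P
  rw [h, add_zero] at h4
  exact neg_eq_zero.mp h4.symm

theorem coe_ne_zero_tors {p : ℕ} {P : Tors E p} (hP : P ≠ 0) : (P : (E⁄Qbar).Point) ≠ 0 :=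
  fun h => hP (Subtype.ext h)

theorem xOf_ne_xOf_double_five {P : Tors E 5} (hP : P ≠ 0) :
    xOf E (P : (E⁄Qbar).Point) ≠ xOf E ((P + P : Tors E 5) : (E⁄Qbar).Point) := by
  intro h
  have h4 := double_double_tors P
  rcases eq_or_eq_neg_of_xOf_eq (coe_ne_zero_tors hP)
      (coe_ne_zero_tors (double_ne_zero_tors hP)) h with h1 | h1
  · have h1' : P = P + P := Subtype.ext h1
    exact hP (by simpa using h1'.symm)
  · have h1' : P = -(P + P) := Subtype.ext (by rw [h1, Submodule.coe_neg])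
    have h3 : P + P + P = 0 := by
      nth_rewrite 3 [h1']
      abel
    have h5 : (P + P) + (P + P) = P := by
      have : (P + P) + (P + P) = (P + P + P) + P := by abel
      rw [this, h3, zero_add]
    rw [h5] at h4
    have h2 : P + P = 0 := by
      nth_rewrite 2 [h4]
      abel
    exact double_ne_zero_tors hP h2

/-- A Galois-stable line in `E[5]` contains a nonzero point `P` such that the symmetric
functions of `x(P)` and `x(2P)` are rational. -/
theorem exists_rational_sym_five [Finite (Tors E 5)] (hcard : Nat.card (Tors E 5) < 5 ^ 3)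
    (N : Submodule (ZMod 5) (Tors E 5)) (hstab : IsGaloisStable ℚ N) (hbot : N ≠ ⊥)
    (htop : N ≠ ⊤) :
    ∃ P : Tors E 5, P ∈ N ∧ P ≠ 0 ∧
      (∃ s : ℚ, algebraMap ℚ Qbar s =
        xOf E (P : (E⁄Qbar).Point) + xOf E ((P + P : Tors E 5) : (E⁄Qbar).Point)) ∧
      (∃ t : ℚ, algebraMap ℚ Qbar t =
        xOf E (P : (E⁄Qbar).Point) * xOf E ((P + P : Tors E 5) : (E⁄Qbar).Point)) := by
  have : Fact (Nat.Prime 5) := ⟨Nat.prime_five⟩
  have : Module.Finite (ZMod 5) (Tors E 5) := Module.Finite.of_finite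
  obtain ⟨P, hPN, hP0, hgen⟩ := exists_generator (finrank_le_two_of_card_lt hcard) N hbot htop
  have key : ∀ σ : GalQ,
      (σ (xOf E (P : (E⁄Qbar).Point)) = xOf E (P : (E⁄Qbar).Point) ∧
        σ (xOf E ((P + P : Tors E 5) : (E⁄Qbar).Point)) =
          xOf E ((P + P : Tors E 5) : (E⁄Qbar).Point)) ∨
      (σ (xOf E (P : (E⁄Qbar).Point)) = xOf E ((P + P : Tors E 5) : (E⁄Qbar).Point) ∧
        σ (xOf E ((P + P : Tors E 5) : (E⁄Qbar).Point)) = xOf E (P : (E⁄Qbar).Point)) := by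
    intro σ
    obtain ⟨c, hc⟩ := hgen (σ • P) (hstab σ P hPN)
    have hc0 : c ≠ 0 := by
      rintro rfl
      rw [zero_smul] at hc
      exact smul_ne_zero_tors σ hP0 hc
    have h2 : σ • (P + P) = σ • P + σ • P := smul_add σ P P
    rw [← xOf_smul_tors, ← xOf_smul_tors, h2, hc]
    rcases zmod_five_cases c hc0 with rfl | rfl | rfl | rfl
    · left
      rw [one_smul]
      exact ⟨rfl, rfl⟩
    · left
      rw [neg_one_smul, xOf_neg_tors, ← neg_add, xOf_neg_tors]
      exact ⟨rfl, rfl⟩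
    · right
      rw [two_smul, double_double_tors, xOf_neg_tors]
      exact ⟨rfl, rfl⟩
    · right
      rw [neg_smul, two_smul, xOf_neg_tors, ← neg_add, double_double_tors, neg_neg]
      exact ⟨rfl, rfl⟩
  refine ⟨P, hPN, hP0, mem_range_of_fixed _ fun σ => ?_, mem_range_of_fixed _ fun σ => ?_⟩
  · rcases key σ with ⟨h1, h2⟩ | ⟨h1, h2⟩
    · rw [map_add, h1, h2]
    · rw [map_add, h1, h2, add_comm]
  · rcases key σ with ⟨h1, h2⟩ | ⟨h1, h2⟩
    · rw [map_mul, h1, h2]
    · rw [map_mul, h1, h2, mul_comm]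

end Five

end Fermat.Agent.S51_helper12
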